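/-
S25 library (helper8028): the "domain lemma".
Over an algebraically closed field `k`, the tensor product of two `k`-domains is a domain.
Mathlib-only; no sorry.
-/
import Mathlib

set_option autoImplicit false

namespace Fermat.Agent.S25.VALSEP.H8028

open scoped TensorProduct

section

variable {k : Type*} [Field k] [IsAlgClosed k]

/-- Nullstellensatz form: in a reduced finitely generated algebra over an algebraically closed
field, a nonzero element is nonzero at some `k`-point. -/
theorem exists_algHom_ne_zero {A : Type*} [CommRing A] [Algebra k A] [Algebra.FiniteType k A]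
    [IsReduced A] {a : A} (ha : a ≠ 0) : ∃ φ : A →ₐ[k] k, φ a ≠ 0 := by
  have : IsJacobsonRing A := isJacobsonRing_of_finiteType (A := k)
  have hJ : (⊥ : Ideal A).jacobson = ⊥ := IsJacobsonRing.out ‹_› Ideal.isRadical_bot
  have hmem : a ∉ (⊥ : Ideal A).jacobson := by rw [hJ]; simpa using ha
  rw [Ideal.jacobson, Ideal.mem_sInf] at hmem
  push Not at hmem
  obtain ⟨𝔪, ⟨-, h𝔪⟩, ha𝔪⟩ := hmem
  let _ := Ideal.Quotient.field 𝔪
  have : Algebra.FiniteType k (A ⧸ 𝔪) :=
    Algebra.FiniteType.of_surjective (Ideal.Quotient.mkₐ k 𝔪) (Ideal.Quotient.mkₐ_surjective k 𝔪)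
  have : Module.Finite k (A ⧸ 𝔪) := finite_of_finite_type_of_isJacobsonRing k (A ⧸ 𝔪)
  have hbij : Function.Bijective (algebraMap k (A ⧸ 𝔪)) :=
    IsAlgClosed.algebraMap_bijective_of_isIntegral
  let e : k ≃ₐ[k] (A ⧸ 𝔪) := AlgEquiv.ofBijective (Algebra.ofId k (A ⧸ 𝔪)) hbij
  refine ⟨(e.symm : (A ⧸ 𝔪) →ₐ[k] k).comp (Ideal.Quotient.mkₐ k 𝔪), ?_⟩
  intro h
  apply ha𝔪
  have h2 : Ideal.Quotient.mkₐ k 𝔪 a = 0 := by
    have := congrArg e h
    simpa using this
  exact Ideal.Quotient.eq_zero_iff_mem.mp h2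

variable {A B : Type*} [CommRing A] [CommRing B] [Algebra k A] [Algebra k B]

omit [IsAlgClosed k] in
/-- Evaluation of the first tensor factor at a `k`-point. -/
noncomputable def evalLeft (φ : A →ₐ[k] k) : A ⊗[k] B →ₐ[k] B :=
  Algebra.TensorProduct.lift ((Algebra.ofId k B).comp φ) (AlgHom.id k B)
    (fun _ _ => Commute.all _ _)

omit [IsAlgClosed k] in
@[simp] theorem evalLeft_tmul (φ : A →ₐ[k] k) (a : A) (b : B) :
    evalLeft φ (a ⊗ₜ[k] b) = φ a • b := by
  simp [evalLeft, Algebra.smul_def, Algebra.ofId_apply]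

omit [IsAlgClosed k] in
theorem repr_evalLeft {ι : Type*} (𝔟 : Module.Basis ι k B) (φ : A →ₐ[k] k) (x : A ⊗[k] B)
    (i : ι) : 𝔟.repr (evalLeft φ x) i = φ ((Algebra.TensorProduct.basis A 𝔟).repr x i) := by
  induction x using TensorProduct.induction_on with
  | zero => simp
  | tmul a b =>
    rw [evalLeft_tmul, map_smul, Algebra.TensorProduct.basis_repr_tmul]
    simp
  | add x y hx hy => simp [hx, hy]

theorem noZeroDivisors_tensor_of_finiteType [Algebra.FiniteType k A] [IsDomain A] [IsDomain B] :
    NoZeroDivisors (A ⊗[k] B) := by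
  classical
  let 𝔟 := Module.Free.chooseBasis k B
  let 𝔟A := Algebra.TensorProduct.basis A 𝔟
  refine ⟨fun {x y} hxy => ?_⟩
  by_contra hne
  push Not at hne
  obtain ⟨hx, hy⟩ := hne
  obtain ⟨i, hi⟩ : ∃ i, 𝔟A.repr x i ≠ 0 := by
    by_contra h
    push Not at h
    exact hx (𝔟A.repr.map_eq_zero_iff.mp (Finsupp.ext h))
  obtain ⟨j, hj⟩ : ∃ j, 𝔟A.repr y j ≠ 0 := by
    by_contra h
    push Not at h
    exact hy (𝔟A.repr.map_eq_zero_iff.mp (Finsupp.ext h))
  obtain ⟨φ, hφ⟩ := exists_algHom_ne_zero (k := k) (mul_ne_zero hi hj)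
  have h0 : evalLeft φ x * evalLeft φ y = 0 := by rw [← map_mul, hxy, map_zero]
  rcases mul_eq_zero.mp h0 with h | h
  · apply hφ
    have := repr_evalLeft 𝔟 φ x i
    rw [h] at this
    rw [map_mul, ← this]
    simp
  · apply hφ
    have := repr_evalLeft 𝔟 φ y j
    rw [h] at this
    rw [map_mul, ← this]
    simp

omit [IsAlgClosed k] in
theorem map_map_inclusion {A' A'' : Subalgebra k A} (h : A' ≤ A'') (z : A' ⊗[k] B) :
    Algebra.TensorProduct.map A''.val (AlgHom.id k B)
      (Algebra.TensorProduct.map (Subalgebra.inclusion h) (AlgHom.id k B) z) =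
    Algebra.TensorProduct.map A'.val (AlgHom.id k B) z := by
  induction z using TensorProduct.induction_on with
  | zero => simp
  | tmul a b => simp
  | add x y hx hy => simp [hx, hy]

omit [IsAlgClosed k] in
/-- Every element of `A ⊗ B` comes from `A' ⊗ B` for a finitely generated subalgebra `A'`. -/
theorem exists_fg_subalgebra_mem_range (x : A ⊗[k] B) :
    ∃ s : Finset A, x ∈ (Algebra.TensorProduct.map (Algebra.adjoin k (s : Set A)).val
      (AlgHom.id k B)).range := by
  classical
  have mono : ∀ {s t : Finset A}, s ⊆ t →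
      (Algebra.TensorProduct.map (Algebra.adjoin k (s : Set A)).val (AlgHom.id k B)).range ≤
      (Algebra.TensorProduct.map (Algebra.adjoin k (t : Set A)).val (AlgHom.id k B)).range := by
    intro s t hst
    have hle : Algebra.adjoin k (s : Set A) ≤ Algebra.adjoin k (t : Set A) :=
      Algebra.adjoin_mono (by exact_mod_cast hst)
    intro w hw
    rw [AlgHom.mem_range] at hw ⊢
    obtain ⟨z, rfl⟩ := hw
    exact ⟨Algebra.TensorProduct.map (Subalgebra.inclusion hle) (AlgHom.id k B) z,
      map_map_inclusion hle z⟩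
  induction x using TensorProduct.induction_on with
  | zero => exact ⟨∅, Subalgebra.zero_mem _⟩
  | tmul a b =>
    refine ⟨{a}, ?_⟩
    rw [AlgHom.mem_range]
    exact ⟨(⟨a, Algebra.subset_adjoin (by simp)⟩ : Algebra.adjoin k _) ⊗ₜ b, by simp⟩
  | add x y hx hy =>
    obtain ⟨s, hs⟩ := hx
    obtain ⟨t, ht⟩ := hy
    exact ⟨s ∪ t, Subalgebra.add_mem _ (mono Finset.subset_union_left hs)
      (mono Finset.subset_union_right ht)⟩

/-- **Domain lemma.**  Over an algebraically closed field, the tensor product of two domains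
is a domain. -/
theorem isDomain_tensor [IsDomain A] [IsDomain B] : IsDomain (A ⊗[k] B) := by
  classical
  have : Nontrivial (A ⊗[k] B) :=
    (Algebra.TensorProduct.includeLeft_injective (R := k) (S := k) (A := A) (B := B)
      (algebraMap k B).injective).nontrivial
  have : NoZeroDivisors (A ⊗[k] B) := by
    refine ⟨fun {x y} hxy => ?_⟩
    obtain ⟨s, hxs⟩ := exists_fg_subalgebra_mem_range (k := k) x
    obtain ⟨t, hyt⟩ := exists_fg_subalgebra_mem_range (k := k) y
    rw [AlgHom.mem_range] at hxs hyt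
    obtain ⟨x', hx'⟩ := hxs
    obtain ⟨y', hy'⟩ := hyt
    let A' := Algebra.adjoin k ((s ∪ t : Finset A) : Set A)
    have hs : Algebra.adjoin k (s : Set A) ≤ A' :=
      Algebra.adjoin_mono (by exact_mod_cast Finset.subset_union_left)
    have ht : Algebra.adjoin k (t : Set A) ≤ A' :=
      Algebra.adjoin_mono (by exact_mod_cast Finset.subset_union_right)
    let F := Algebra.TensorProduct.map A'.val (AlgHom.id k B)
    let x'' : A' ⊗[k] B := Algebra.TensorProduct.map (Subalgebra.inclusion hs) (AlgHom.id k B) x'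
    let y'' : A' ⊗[k] B := Algebra.TensorProduct.map (Subalgebra.inclusion ht) (AlgHom.id k B) y'
    have hFx : F x'' = x := by rw [← hx']; exact map_map_inclusion hs x'
    have hFy : F y'' = y := by rw [← hy']; exact map_map_inclusion ht y'
    have hFinj : Function.Injective F := by
      have : Function.Injective (LinearMap.rTensor B A'.val.toLinearMap) :=
        Module.Flat.rTensor_preserves_injective_linearMap _ Subtype.val_injective
      exact this
    have : Algebra.FiniteType k A' :=
      (Subalgebra.fg_iff_finiteType _).mp (Subalgebra.fg_adjoin_finset _)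
    have : NoZeroDivisors (A' ⊗[k] B) := noZeroDivisors_tensor_of_finiteType
    have h0 : x'' * y'' = 0 := hFinj (by rw [map_mul, hFx, hFy, hxy, map_zero])
    rcases mul_eq_zero.mp h0 with h | h
    · left; rw [← hFx, h, map_zero]
    · right; rw [← hFy, h, map_zero]
  exact NoZeroDivisors.to_isDomain _

end

end Fermat.Agent.S25.VALSEP.H8028
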